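import Fermat.Agent.HilbertDifferent.Generator
import Mathlib.LinearAlgebra.Lagrange
import Mathlib.RingTheory.DedekindDomain.Different
import Mathlib.FieldTheory.IntermediateField.Adjoin.Basic
import Mathlib.RingTheory.UniqueFactorizationDomain.Multiplicity

/-!
# Hilbert's formula for the different

With a generator `α` whose conductor is prime to `P`, an automorphism `g` is trivial modulo `P ^ n`
iff `g α - α` lies in `P ^ n`, and the product of the `α - g α` over `g ≠ 1` generates the conductor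
times the different. So the exponent of `P` in the different is the sum of `|G n| - 1`.
-/

set_option autoImplicit false
set_option linter.style.haveILetI false

noncomputable section

namespace FA.HilbertDifferent

open NumberField Polynomial Finset
open scoped Pointwise

variable (K : Type*) {L : Type*} [Field K] [NumberField K] [Field L] [NumberField L] [Algebra K L]
  [IsGalois K L]

/-- The higher ramification groups. -/
abbrev ramGroup (P : Ideal (𝓞 L)) (n : ℕ) : Subgroup (L ≃ₐ[K] L) :=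
  (P ^ (n + 1)).inertia (L ≃ₐ[K] L)

omit [NumberField K] [NumberField L] [IsGalois K L] in
theorem smul_aeval (g : L ≃ₐ[K] L) (q : (𝓞 K)[X]) (x : 𝓞 L)
    [SMulCommClass (L ≃ₐ[K] L) (𝓞 K) (𝓞 L)] :
    g • aeval x q = aeval (g • x) q :=
  (aeval_algHom_apply (MulSemiringAction.toAlgHom (𝓞 K) (𝓞 L) g) x q).symm

/-- **Trivial modulo `P ^ n` iff it fixes the generator modulo `P ^ n`.** -/
theorem mem_inertia_iff {P : Ideal (𝓞 L)} [hP : P.IsMaximal] {α : 𝓞 L}
    (hα : ¬ conductor (𝓞 K) α ≤ P) (g : L ≃ₐ[K] L) (n : ℕ) :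
    g ∈ (P ^ n).inertia (L ≃ₐ[K] L) ↔ g • α - α ∈ P ^ n := by
  refine ⟨fun h => h α, fun h x => ?_⟩
  have key : ∀ c ∈ Algebra.adjoin (𝓞 K) ({α} : Set (𝓞 L)), g • c - c ∈ P ^ n := fun c hc => by
    rw [Algebra.adjoin_singleton_eq_range_aeval] at hc
    obtain ⟨q, rfl⟩ := hc
    change g • aeval α q - aeval α q ∈ P ^ n
    rw [smul_aeval, ← eval_map_algebraMap, ← eval_map_algebraMap]
    exact Ideal.mem_of_dvd _ (sub_dvd_eval_sub (g • α) α _) h
  obtain ⟨s, hs, hsP⟩ := SetLike.not_le_iff_exists.1 hα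
  have h1 := key _ (conductor_subset_adjoin hs)
  have h2 := key _ (hs x)
  rw [smul_mul'] at h2
  have h3 : (g • x - x) * s ∈ P ^ n := by
    have := (P ^ n).sub_mem h2 (Ideal.mul_mem_right (g • x) _ h1)
    rwa [show g • s * g • x - s * x - (g • s - s) * g • x = (g • x - x) * s by ring] at this
  rw [mul_comm] at h3
  exact (Ideal.IsPrime.mul_mem_pow P h3).resolve_left hsP

omit [IsGalois K L] in
/-- A conductor outside `P` makes it a generator of the field. -/
theorem adjoin_eq_top {P : Ideal (𝓞 L)} {α : 𝓞 L} (hα : ¬ conductor (𝓞 K) α ≤ P) :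
    Algebra.adjoin K ({(α : L)} : Set L) = ⊤ := by
  obtain ⟨s, hs, hsP⟩ := SetLike.not_le_iff_exists.1 hα
  have hs0 : (s : L) ≠ 0 := fun e => hsP (by
    rw [RingOfIntegers.coe_eq_zero_iff.1 e]; exact P.zero_mem)
  rw [← IntermediateField.adjoin_simple_toSubalgebra_of_isAlgebraic
    (Algebra.IsIntegral.isIntegral (R := K) (α : L)).isAlgebraic, eq_top_iff]
  rintro x -
  rw [IntermediateField.mem_toSubalgebra]
  have hC : ∀ c ∈ Algebra.adjoin (𝓞 K) ({α} : Set (𝓞 L)),
      (c : L) ∈ IntermediateField.adjoin K {(α : L)} := fun c hc => by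
    rw [Algebra.adjoin_singleton_eq_range_aeval] at hc
    obtain ⟨q, rfl⟩ := hc
    change algebraMap (𝓞 L) L (aeval α q) ∈ _
    rw [← aeval_algebraMap_apply, ← aeval_map_algebraMap K]
    exact IntermediateField.algebra_adjoin_le_adjoin K _ (aeval_mem_adjoin_singleton K _)
  have hB : ∀ b : 𝓞 L, (b : L) ∈ IntermediateField.adjoin K {(α : L)} := fun b => by
    have h1 := hC _ (hs b)
    replace h1 : (s : L) * (b : L) ∈ IntermediateField.adjoin K {(α : L)} := by simpa using h1
    have h2 := div_mem h1 (hC _ (conductor_subset_adjoin hs))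
    rwa [mul_div_cancel_left₀ _ hs0] at h2
  obtain ⟨a, b, -, rfl⟩ := IsFractionRing.div_surjective (A := 𝓞 L) x
  exact div_mem (hB a) (hB b)

omit [NumberField K] [NumberField L] [IsGalois K L] in
theorem smul_injective {α : 𝓞 L} (hα : Algebra.adjoin K ({(α : L)} : Set L) = ⊤) :
    Function.Injective fun g : L ≃ₐ[K] L => g • α := fun g h e =>
  AlgEquiv.coe_toAlgHom_injective (AlgHom.ext_of_adjoin_eq_top hα fun x hx => by
    obtain rfl := hx
    exact congrArg (algebraMap (𝓞 L) L) e)

/-- The minimal polynomial of a generator. -/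
theorem minpoly_map_eq {α : 𝓞 L} (hα : Algebra.adjoin K ({(α : L)} : Set L) = ⊤) :
    (minpoly (𝓞 K) α).map (algebraMap (𝓞 K) (𝓞 L)) = ∏ g : L ≃ₐ[K] L, (X - C (g • α)) := by
  classical
  have hint : IsIntegral (𝓞 K) α := Algebra.IsIntegral.isIntegral α
  have hintK : IsIntegral K (α : L) := Algebra.IsIntegral.isIntegral _
  have hdeg : (minpoly (𝓞 K) α).natDegree = Fintype.card (L ≃ₐ[K] L) := by
    rw [← Nat.card_eq_fintype_card, IsGalois.card_aut_eq_finrank,
      ← (minpoly.monic hint).natDegree_map (algebraMap (𝓞 K) K),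
      ← minpoly.isIntegrallyClosed_eq_field_fractions K L hint,
      ← IntermediateField.adjoin.finrank hintK]
    have htop : IntermediateField.adjoin K {(α : L)} = ⊤ := by
      rw [eq_top_iff]
      intro x _
      exact IntermediateField.algebra_adjoin_le_adjoin K _ (hα.ge Algebra.mem_top)
    rw [htop, IntermediateField.finrank_top']
  set M := (minpoly (𝓞 K) α).map (algebraMap (𝓞 K) (𝓞 L))
  have hM : M.Monic := (minpoly.monic hint).map _
  have hle : (univ : Finset (L ≃ₐ[K] L)).val.map (fun g => g • α) ≤ M.roots := by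
    refine (Multiset.le_iff_subset ((univ : Finset (L ≃ₐ[K] L)).nodup.map (smul_injective K hα))).2
      fun y hy => ?_
    obtain ⟨g, -, rfl⟩ := Multiset.mem_map.1 hy
    rw [mem_roots hM.ne_zero, IsRoot.def, eval_map_algebraMap, ← smul_aeval, minpoly.aeval,
      smul_zero]
  refine eq_of_monic_of_dvd_of_natDegree_le (monic_prod_of_monic _ _ fun g _ => monic_X_sub_C _)
    hM ?_ ?_
  · have := (Multiset.prod_X_sub_C_dvd_iff_le_roots hM.ne_zero _).2 hle
    rwa [Multiset.map_map] at this
  · rw [(minpoly.monic hint).natDegree_map, hdeg, natDegree_prod_of_monic _ _ fun g _ =>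
      monic_X_sub_C _]
    simp

/-- The derivative at a generator. -/
theorem aeval_derivative_minpoly [DecidableEq (L ≃ₐ[K] L)] {α : 𝓞 L}
    (hα : Algebra.adjoin K ({(α : L)} : Set L) = ⊤) :
    aeval α (derivative (minpoly (𝓞 K) α)) =
      ∏ g ∈ (univ : Finset (L ≃ₐ[K] L)).erase 1, (α - g • α) := by
  classical
  rw [← eval_map_algebraMap, ← derivative_map, minpoly_map_eq K hα, ← Lagrange.nodal_eq]
  conv_lhs => arg 1; rw [← one_smul (L ≃ₐ[K] L) α]
  refine (Lagrange.eval_nodal_derivative_eval_node_eq (v := fun g : L ≃ₐ[K] L => g • α)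
    (mem_univ 1)).trans ?_
  rw [Lagrange.eval_nodal, one_smul]

open scoped Classical in
theorem emultiplicity_eq_card_filter {P : Ideal (𝓞 L)} [P.IsMaximal] {x : 𝓞 L} {N : ℕ}
    (hN : x ∉ P ^ (N + 1)) :
    emultiplicity P (Ideal.span {x}) = ((range N).filter fun n => x ∈ P ^ (n + 1)).card := by
  classical
  have hfin : FiniteMultiplicity P (Ideal.span {x}) :=
    ⟨N, fun h => hN ((Ideal.dvd_span_singleton).1 h)⟩
  rw [hfin.emultiplicity_eq_multiplicity, Nat.cast_inj]
  set m := multiplicity P (Ideal.span {x})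
  have hle : ∀ k, x ∈ P ^ k ↔ k ≤ m := fun k => by
    rw [← Ideal.dvd_span_singleton, hfin.pow_dvd_iff_le_multiplicity]
  have hmN : m ≤ N := by
    have := (hle (N + 1)).not.1 hN
    omega
  rw [show ((range N).filter fun n => x ∈ P ^ (n + 1)) = range m by
    ext n; simp only [mem_filter, mem_range, hle]; omega, card_range]

/-- **Hilbert's formula.** -/
theorem emultiplicity_differentIdeal {P : Ideal (𝓞 L)} [hP : P.IsMaximal] {N : ℕ}
    (hN : ramGroup K P N = ⊥) :
    emultiplicity P (differentIdeal (𝓞 K) (𝓞 L)) =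
      ((∑ n ∈ range N, (Nat.card (ramGroup K P n) - 1) : ℕ) : ℕ∞) := by
  classical
  obtain ⟨α, r, hα, -⟩ := exists_generator K P
  have hgen := adjoin_eq_top K hα
  have hPp : Prime P := Ideal.prime_of_isPrime (ne_bot_of_isMaximal P) hP.isPrime
  have h0 : emultiplicity P (conductor (𝓞 K) α) = 0 :=
    emultiplicity_eq_zero.2 fun h => hα (Ideal.dvd_iff_le.1 h)
  have h1 : emultiplicity P (differentIdeal (𝓞 K) (𝓞 L)) =
      emultiplicity P (conductor (𝓞 K) α * differentIdeal (𝓞 K) (𝓞 L)) := by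
    rw [emultiplicity_mul hPp, h0, zero_add]
  rw [h1, conductor_mul_differentIdeal (𝓞 K) K L α hgen, aeval_derivative_minpoly K hgen,
    ← Ideal.prod_span_singleton, Finset.emultiplicity_prod hPp]
  have key : ∀ g ∈ (univ : Finset (L ≃ₐ[K] L)).erase 1,
      emultiplicity P (Ideal.span {α - g • α}) =
        (((range N).filter fun n => g ∈ ramGroup K P n).card : ℕ∞) := fun g hg => by
    have hm : ∀ n, α - g • α ∈ P ^ n ↔ g ∈ (P ^ n).inertia (L ≃ₐ[K] L) := fun n => by
      rw [mem_inertia_iff K hα, ← (P ^ n).neg_mem_iff, neg_sub]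
    rw [emultiplicity_eq_card_filter (N := N) fun h => (mem_erase.1 hg).1 (by
      rw [← Subgroup.mem_bot, ← hN]; exact (hm _).1 h)]
    simp only [hm]
  rw [Finset.sum_congr rfl key, ← Nat.cast_sum, Nat.cast_inj]
  simp only [card_filter]
  rw [Finset.sum_comm]
  refine sum_congr rfl fun n _ => ?_
  rw [← card_filter, Nat.card_eq_fintype_card, Fintype.card_subtype,
    ← card_erase_of_mem (show (1 : L ≃ₐ[K] L) ∈ univ.filter fun g => g ∈ ramGroup K P n from
      mem_filter.2 ⟨mem_univ _, one_mem _⟩)]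
  congr 1
  ext g
  simp [and_comm]

omit [IsGalois K L] in
/-- The ramification groups are eventually trivial. -/
theorem exists_ramGroup_eq_bot (P : Ideal (𝓞 L)) [hP : P.IsMaximal] :
    ∃ N, ramGroup K P N = ⊥ := by
  classical
  have key : ∀ g : L ≃ₐ[K] L, ∃ n, g ≠ 1 → g ∉ ramGroup K P n := fun g => by
    by_cases hg : g = 1
    · exact ⟨0, fun h => absurd hg h⟩
    obtain ⟨x, hx⟩ : ∃ x : 𝓞 L, g • x ≠ x := by
      by_contra! h
      refine hg (AlgEquiv.ext fun y => ?_)
      obtain ⟨a, b, -, rfl⟩ := IsFractionRing.div_surjective (A := 𝓞 L) y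
      rw [map_div₀]
      exact congrArg₂ (· / ·) (congrArg (algebraMap (𝓞 L) L) (h a))
        (congrArg (algebraMap (𝓞 L) L) (h b))
    obtain ⟨n, hn⟩ : ∃ n, g • x - x ∉ P ^ n := by
      by_contra! h
      have h1 : g • x - x ∈ (⨅ n, P ^ n : Ideal (𝓞 L)) := (Submodule.mem_iInf _).2 h
      rw [Ideal.iInf_pow_eq_bot_of_isDomain P hP.ne_top, Ideal.mem_bot, sub_eq_zero] at h1
      exact hx h1
    exact ⟨n, fun _ h => hn (Ideal.pow_le_pow_right (Nat.le_succ n) (h x))⟩
  choose m hm using key
  refine ⟨univ.sup m, (Subgroup.eq_bot_iff_forall _).2 fun g hg => ?_⟩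
  by_contra h
  exact hm g h fun x => Ideal.pow_le_pow_right (by have := le_sup (f := m) (mem_univ g); omega)
    (hg x)

omit [NumberField K] [NumberField L] [IsGalois K L] in
theorem ramGroup_anti (P : Ideal (𝓞 L)) {m n : ℕ} (h : m ≤ n) :
    ramGroup K P n ≤ ramGroup K P m :=
  fun _ hg x => Ideal.pow_le_pow_right (by omega) (hg x)

end FA.HilbertDifferent

end
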