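import Mathlib.FieldTheory.Finite.Basic
import Mathlib.FieldTheory.Perfect
import Mathlib.NumberTheory.NumberField.Basic
import Mathlib.NumberTheory.RamificationInertia.Galois
import Mathlib.RingTheory.Conductor
import Mathlib.RingTheory.Ideal.Quotient.HasFiniteQuotients
import Mathlib.RingTheory.Invariant.Basic
import Mathlib.RingTheory.Finiteness.Nakayama

/-!
# A generator prime to a given prime

For a prime `P` over `p` in a Galois extension there is an integer `α` outside `P`, in the other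
primes over `p`, whose residue generates the residue field and at which a lift `r` of the minimal
polynomial of the residue takes a value of exact order one at `P`. Then `p` and `r(α)` generate `P`,
so by Nakayama the conductor of `A[α]` is prime to `P`, and `r(α)` is a uniformiser in `A[α]`.
-/

set_option autoImplicit false
set_option linter.style.haveILetI false

noncomputable section

namespace FA.HilbertDifferent

open NumberField Polynomial Finset
open scoped Pointwise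

variable (K : Type*) {L : Type*} [Field K] [NumberField K] [Field L] [NumberField L] [Algebra K L]
  [IsGalois K L]

theorem ne_bot_of_isMaximal (P : Ideal (𝓞 L)) [hP : P.IsMaximal] : P ≠ ⊥ := fun e =>
  RingOfIntegers.not_isField L (Ring.isField_iff_maximal_bot.2 (e ▸ hP))

omit [IsGalois K L] in
/-- An element of all other primes over the same prime, `1` at `P`. -/
theorem exists_crt (P : Ideal (𝓞 L)) [hP : P.IsMaximal] :
    ∃ z : 𝓞 L, z - 1 ∈ P ∧ ∀ g : L ≃ₐ[K] L, g • P ≠ P → z ∈ g • P := by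
  classical
  set S := (univ.filter fun g : L ≃ₐ[K] L => g • P ≠ P)
  obtain ⟨z, hz, hzP⟩ : ∃ z, (∀ g ∈ S, z ∈ g • P) ∧ z ∉ P := by
    by_contra! hall
    have hle : S.inf (fun g => g • P) ≤ P := fun z hz => hall z fun g hg =>
      (Finset.inf_le (f := fun g => g • P) hg) hz
    obtain ⟨g, hg, hgle⟩ := (Ideal.IsPrime.inf_le' hP.isPrime).1 hle
    exact (mem_filter.1 hg).2 ((Ideal.map_isMaximal_of_equiv
      (MulSemiringAction.toRingEquiv (L ≃ₐ[K] L) (𝓞 L) g) (p := P)).eq_of_le hP.ne_top hgle)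
  letI := Ideal.Quotient.field P
  obtain ⟨w, hw⟩ := Ideal.Quotient.mk_surjective (Ideal.Quotient.mk P z)⁻¹
  refine ⟨w * z, ?_, fun g hg => Ideal.mul_mem_left _ _ (hz g (mem_filter.2 ⟨mem_univ _, hg⟩))⟩
  rw [← Ideal.Quotient.eq_zero_iff_mem, map_sub, map_mul, hw, map_one, inv_mul_cancel₀, sub_self]
  rwa [Ne, Ideal.Quotient.eq_zero_iff_mem]

omit [NumberField K] [NumberField L] [IsGalois K L] in
/-- The first order expansion. -/
theorem aeval_add_sub_mem (r : (𝓞 K)[X]) (x : 𝓞 L) {h : 𝓞 L} {P : Ideal (𝓞 L)} (hh : h ∈ P) :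
    aeval (x + h) r - (aeval x r + aeval x (derivative r) * h) ∈ P ^ 2 := by
  obtain ⟨k, hk⟩ := (r.map (algebraMap (𝓞 K) (𝓞 L))).binomExpansion x h
  rw [eval_map_algebraMap, eval_map_algebraMap, derivative_map, eval_map_algebraMap] at hk
  rw [hk, add_sub_cancel_left]
  exact Ideal.mul_mem_left _ _ (Ideal.pow_mem_pow hh 2)

omit [IsGalois K L] in
/-- The element with its uniformiser. -/
theorem exists_element (P : Ideal (𝓞 L)) [hP : P.IsMaximal] :
    ∃ (α : 𝓞 L) (r : (𝓞 K)[X]), (∀ g : L ≃ₐ[K] L, g • P ≠ P → α ∈ g • P) ∧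
      (∀ x : 𝓞 L, ∃ q : (𝓞 K)[X], x - aeval α q ∈ P) ∧ aeval α r ∈ P ∧ aeval α r ∉ P ^ 2 ∧
      aeval α (derivative r) ∉ P ∧ r.coeff 0 ∉ P.under (𝓞 K) := by
  classical
  obtain ⟨z, hz1, hz⟩ := exists_crt K P
  set p := P.under (𝓞 K)
  haveI : p.IsMaximal := Ideal.IsMaximal.under (𝓞 K) P
  letI := Ideal.Quotient.field p
  letI := Ideal.Quotient.field P
  haveI : Finite (𝓞 L ⧸ P) := Ring.HasFiniteQuotients.finiteQuotient
    (ne_bot_of_isMaximal P)
  haveI : Finite (𝓞 K ⧸ p) := Ring.HasFiniteQuotients.finiteQuotient fun e =>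
    RingOfIntegers.not_isField K (Ring.isField_iff_maximal_bot.2 (e ▸ inferInstance))
  haveI : Module.Finite (𝓞 K ⧸ p) (𝓞 L ⧸ P) := Module.Finite.of_finite
  haveI : Algebra.IsIntegral (𝓞 K ⧸ p) (𝓞 L ⧸ P) := Algebra.IsIntegral.of_finite _ _
  obtain ⟨u, hu⟩ := IsCyclic.exists_generator (α := (𝓞 L ⧸ P)ˣ)
  obtain ⟨a, ha⟩ := Ideal.Quotient.mk_surjective (u : 𝓞 L ⧸ P)
  set m := minpoly (𝓞 K ⧸ p) (u : 𝓞 L ⧸ P)
  obtain ⟨r, hr⟩ := map_surjective (Ideal.Quotient.mk p) Ideal.Quotient.mk_surjective m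
  have hint : IsIntegral (𝓞 K ⧸ p) (u : 𝓞 L ⧸ P) := Algebra.IsIntegral.isIntegral _
  have haev : ∀ (q : (𝓞 K)[X]) (x : 𝓞 L), Ideal.Quotient.mk P (aeval x q) =
      aeval (Ideal.Quotient.mk P x) (q.map (Ideal.Quotient.mk p)) := fun q x => by
    rw [← Ideal.Quotient.mkₐ_eq_mk (𝓞 K), ← aeval_algHom_apply, aeval_def, aeval_def, eval₂_map]
    congr 1
  have hcong : ∀ x, Ideal.Quotient.mk P x = (u : 𝓞 L ⧸ P) →
      aeval x r ∈ P ∧ aeval x (derivative r) ∉ P := fun x hx => by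
    rw [← Ideal.Quotient.eq_zero_iff_mem, haev, hr, hx, ← Ideal.Quotient.eq_zero_iff_mem, haev,
      ← derivative_map, hr, hx]
    exact ⟨minpoly.aeval _ _,
      (PerfectField.separable_of_irreducible (minpoly.irreducible hint)).aeval_derivative_ne_zero
        (minpoly.aeval _ _)⟩
  obtain ⟨π, hπ, hπ2⟩ : ∃ π ∈ P, π ∉ P ^ 2 := by
    by_contra! h
    have h1 : P ^ 2 = P := le_antisymm (Ideal.pow_le_self two_ne_zero) h
    exact (Ideal.pow_right_strictAnti P (ne_bot_of_isMaximal P) hP.ne_top one_lt_two).ne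
      (by simpa using h1)
  have hzP : z ∉ P := fun h => hP.ne_top ((Ideal.eq_top_iff_one P).2
    (by simpa using P.sub_mem h hz1))
  have hza : Ideal.Quotient.mk P (z * a) = u := by
    rw [map_mul, ha, show Ideal.Quotient.mk P z = 1 from Ideal.Quotient.eq.2 hz1, one_mul]
  obtain ⟨α, hαu, hαQ, hα2⟩ : ∃ α, Ideal.Quotient.mk P α = (u : 𝓞 L ⧸ P) ∧
      (∀ g : L ≃ₐ[K] L, g • P ≠ P → α ∈ g • P) ∧ aeval α r ∉ P ^ 2 := by
    by_cases h2 : aeval (z * a) r ∈ P ^ 2
    · refine ⟨z * a + z * π, ?_, fun g hg => Ideal.add_mem _ (Ideal.mul_mem_right _ _ (hz g hg))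
        (Ideal.mul_mem_right _ _ (hz g hg)), fun h => ?_⟩
      · rw [map_add, hza, Ideal.Quotient.eq_zero_iff_mem.2 (P.mul_mem_left _ hπ), add_zero]
      have h3 := (P ^ 2).sub_mem (Ideal.sub_mem _ h
        (aeval_add_sub_mem K r (z * a) (P.mul_mem_left z hπ))) h2
      rw [show aeval (z * a + z * π) r - (aeval (z * a + z * π) r - (aeval (z * a) r +
        aeval (z * a) (derivative r) * (z * π))) - aeval (z * a) r =
          (aeval (z * a) (derivative r) * z) * π by ring] at h3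
      rcases Ideal.IsPrime.mul_mem_pow P h3 with h4 | h4
      · exact (hP.isPrime.mem_or_mem h4).elim (hcong _ hza).2 hzP |>.elim
      · exact hπ2 h4
    · exact ⟨z * a, hza, fun g hg => Ideal.mul_mem_right _ _ (hz g hg), h2⟩
  refine ⟨α, r, hαQ, fun x => ?_, (hcong α hαu).1, hα2, (hcong α hαu).2, fun h => ?_⟩
  · by_cases hx : x ∈ P
    · exact ⟨0, by simpa using hx⟩
    obtain ⟨k, hk⟩ := (mem_powers_iff_mem_zpowers.2 (hu (Units.mk0 (Ideal.Quotient.mk P x)
      (by rwa [Ne, Ideal.Quotient.eq_zero_iff_mem]))))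
    refine ⟨X ^ k, ?_⟩
    rw [← Ideal.Quotient.eq_zero_iff_mem, map_sub, map_pow (aeval α), aeval_X, map_pow, hαu,
      sub_eq_zero]
    exact (congrArg Units.val hk).symm
  · refine minpoly.coeff_zero_ne_zero hint u.ne_zero ?_
    rw [show minpoly (𝓞 K ⧸ p) (u : 𝓞 L ⧸ P) = r.map (Ideal.Quotient.mk p) from hr.symm,
      coeff_map, Ideal.Quotient.eq_zero_iff_mem]
    exact h

/-- **The conductor of the generator is prime to `P`.** -/
theorem exists_generator (P : Ideal (𝓞 L)) [hP : P.IsMaximal] :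
    ∃ (α : 𝓞 L) (r : (𝓞 K)[X]), ¬ conductor (𝓞 K) α ≤ P ∧
      aeval α r ∈ P ∧ aeval α r ∉ P ^ 2 ∧ aeval α (derivative r) ∉ P := by
  classical
  obtain ⟨α, r, hQ, hres, hr1, hr2, hr3, hr0⟩ := exists_element K P
  refine ⟨α, r, ?_, hr1, hr2, hr3⟩
  set C := Algebra.adjoin (𝓞 K) ({α} : Set (𝓞 L))
  set n : Ideal C := P.comap (algebraMap C (𝓞 L))
  have hαC : ∀ q : (𝓞 K)[X], aeval α q ∈ C := fun q => aeval_mem_adjoin_singleton _ _
  set I := n.map (algebraMap C (𝓞 L))
  have hgI : aeval α r ∈ I :=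
    Ideal.mem_map_of_mem (algebraMap C (𝓞 L)) (show (⟨_, hαC r⟩ : C) ∈ n from hr1)
  have hIP : I ≤ P := Ideal.map_comap_le
  -- `n` generates `P`
  have hPI : I = P := by
    obtain ⟨J, hJ⟩ := Ideal.dvd_iff_le.2 hIP
    by_cases hJt : J = ⊤
    · rw [hJ, hJt, Ideal.mul_top]
    obtain ⟨Q, hQm, hJQ⟩ := Ideal.exists_le_maximal J hJt
    have hIQ : I ≤ Q := hJ.le.trans (Ideal.mul_le_right.trans hJQ)
    have hpQ : P.under (𝓞 K) ≤ Q.under (𝓞 K) := fun x hx => by
      refine hIQ ?_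
      rw [IsScalarTower.algebraMap_apply (𝓞 K) C (𝓞 L)]
      refine Ideal.mem_map_of_mem (algebraMap C (𝓞 L)) ?_
      rw [Ideal.mem_comap, ← IsScalarTower.algebraMap_apply]
      exact hx
    haveI := hQm
    haveI : (P.under (𝓞 K)).IsMaximal := Ideal.IsMaximal.under (𝓞 K) P
    haveI : (Q.under (𝓞 K)).IsMaximal := Ideal.IsMaximal.under (𝓞 K) Q
    obtain ⟨g, hg⟩ := Algebra.IsInvariant.exists_smul_of_under_eq (𝓞 K) (𝓞 L) (L ≃ₐ[K] L) P Q
      ((inferInstance : (P.under (𝓞 K)).IsMaximal).eq_of_le Ideal.IsPrime.ne_top' hpQ)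
    by_cases hgP : g • P = P
    · exfalso
      rw [hgP] at hg
      subst hg
      refine hr2 ?_
      rw [pow_two]
      exact Ideal.mul_mono_right hJQ (hJ ▸ hgI)
    · exfalso
      subst hg
      have h2 : aeval α r - algebraMap (𝓞 K) (𝓞 L) (r.coeff 0) ∈ g • P := by
        obtain ⟨q, hq⟩ := X_dvd_sub_C (p := r)
        have h3 := congrArg (aeval α) hq
        rw [map_sub, aeval_C, map_mul, aeval_X] at h3
        rw [h3]
        exact Ideal.mul_mem_right _ _ (hQ g hgP)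
      have h4 := (g • P).sub_mem (hIQ hgI) h2
      rw [sub_sub_cancel] at h4
      refine hr0 ?_
      rw [(inferInstance : (P.under (𝓞 K)).IsMaximal).eq_of_le Ideal.IsPrime.ne_top' hpQ]
      exact h4
  -- Nakayama
  haveI : Module.Finite C (𝓞 L) := Module.Finite.of_restrictScalars_finite (𝓞 K) C (𝓞 L)
  set N := Submodule.span C ({1} : Set (𝓞 L))
  obtain ⟨s, hs1, hs⟩ := Submodule.exists_sub_one_mem_and_smul_eq_zero_of_fg_of_le_smul n
    (⊤ : Submodule C (𝓞 L ⧸ N)) Module.Finite.fg_top (by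
      rintro y -
      obtain ⟨x, rfl⟩ := Submodule.Quotient.mk_surjective N y
      obtain ⟨q, hq⟩ := hres x
      have h1 : Submodule.Quotient.mk (p := N) x = Submodule.Quotient.mk (x - aeval α q) := by
        rw [Submodule.Quotient.eq, sub_sub_cancel]
        exact Submodule.mem_span_singleton.2 ⟨⟨_, hαC q⟩, mul_one _⟩
      rw [h1]
      have h2 : x - aeval α q ∈ n • (⊤ : Submodule C (𝓞 L)) := by
        rw [Ideal.smul_top_eq_map, Submodule.restrictScalars_mem]
        exact hPI.ge hq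
      have h3 := Submodule.mem_map_of_mem (f := N.mkQ) h2
      rw [Submodule.map_smul'', Submodule.map_top, Submodule.range_mkQ] at h3
      exact h3)
  refine fun hc => ?_
  have hsP : (s : 𝓞 L) ∈ P := hc fun b => by
    have h := hs (Submodule.Quotient.mk b) Submodule.mem_top
    rw [← Submodule.Quotient.mk_smul, Submodule.Quotient.mk_eq_zero,
      Submodule.mem_span_singleton] at h
    obtain ⟨c, hc'⟩ := h
    change c • (1 : 𝓞 L) = (s : 𝓞 L) * b at hc'
    rw [← hc', Algebra.smul_def, mul_one]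
    exact c.2
  exact hP.ne_top ((Ideal.eq_top_iff_one P).2 (by simpa using P.sub_mem hsP hs1))

end FA.HilbertDifferent

end
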