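import Fermat.Agent.HilbertDifferent.Formula
import Mathlib.GroupTheory.Perm.Cycle.Type
import Mathlib.RingTheory.Ideal.Norm.AbsNorm

/-!
# The first ramification group and tameness

An element of order `p`, the residue characteristic, of the inertia group multiplies a uniformiser
by a `p`-th root of unity modulo `P`, that is by `1`, so it lies in `G 1`. Conversely an element of
`G n`, `n ≥ 1`, of order prime to `p` lies in `G (n + 1)`. So `G 1 = 1` iff `p` does not divide the
order `e` of the inertia group, and the exponent of the different is `e - 1` exactly then.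
-/

set_option autoImplicit false
set_option linter.style.haveILetI false

noncomputable section

namespace FA.HilbertDifferent

open NumberField Polynomial Finset
open scoped Pointwise

variable (K : Type*) {L : Type*} [Field K] [NumberField K] [Field L] [NumberField L] [Algebra K L]
  [IsGalois K L]

omit [NumberField K] [NumberField L] [IsGalois K L] in
theorem ramGroup_zero (P : Ideal (𝓞 L)) : ramGroup K P 0 = P.inertia (L ≃ₐ[K] L) := by
  rw [ramGroup, zero_add, pow_one]

omit [NumberField K] [NumberField L] [IsGalois K L] in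
theorem smul_mem_pow {P : Ideal (𝓞 L)} {g : L ≃ₐ[K] L} (hg : g ∈ P.inertia (L ≃ₐ[K] L)) {n : ℕ}
    {x : 𝓞 L} (hx : x ∈ P ^ n) : g • x ∈ P ^ n := by
  induction n generalizing x with
  | zero => simp
  | succ n ih =>
    rw [pow_succ] at hx ⊢
    refine Submodule.mul_induction_on hx (fun a ha b hb => ?_) fun a b ha hb => ?_
    · rw [smul_mul']
      exact Ideal.mul_mem_mul (ih ha) (by simpa using P.add_mem (hg b) hb)
    · rw [smul_add]
      exact Ideal.add_mem _ ha hb

omit [NumberField K] [NumberField L] [IsGalois K L] in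
theorem smul_sub_mem_pow {P : Ideal (𝓞 L)} {g : L ≃ₐ[K] L} (hg : g ∈ ramGroup K P 1) {n : ℕ}
    {x : 𝓞 L} (hx : x ∈ P ^ n) : g • x - x ∈ P ^ (n + 1) := by
  have hg0 : g ∈ P.inertia (L ≃ₐ[K] L) :=
    ramGroup_zero K P ▸ ramGroup_anti K P zero_le_one hg
  induction n generalizing x with
  | zero => simpa using hg0 x
  | succ n ih =>
    rw [pow_succ] at hx
    refine Submodule.mul_induction_on hx (fun a ha b hb => ?_) fun a b ha hb => ?_
    · rw [smul_mul', show g • a * g • b - a * b = (g • a - a) * g • b + a * (g • b - b) by ring]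
      refine Ideal.add_mem _ ?_ ?_
      · rw [pow_succ]
        exact Ideal.mul_mem_mul (ih ha) (by simpa using P.add_mem (hg0 b) hb)
      · rw [show n + 1 + 1 = n + (1 + 1) by ring, pow_add]
        exact Ideal.mul_mem_mul ha (hg b)
    · rw [smul_add, add_sub_add_comm]
      exact Ideal.add_mem _ ha hb

/-- An element of `G 1` whose order is non-zero modulo `P` is trivial. -/
theorem eq_one_of_mem_ramGroup_one {P : Ideal (𝓞 L)} [P.IsMaximal] {g : L ≃ₐ[K] L}
    (hg : g ∈ ramGroup K P 1) (h : (orderOf g : 𝓞 L ⧸ P) ≠ 0) : g = 1 := by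
  obtain ⟨α, r, hα, -⟩ := exists_generator K P
  obtain ⟨N, hN⟩ := exists_ramGroup_eq_bot K P
  have hall : ∀ n, g ∈ ramGroup K P (n + 1) := fun n => by
    induction n with
    | zero => exact hg
    | succ n ih =>
      rw [ramGroup, mem_inertia_iff K hα]
      set δ := g • α - α
      have hδ : δ ∈ P ^ (n + 2) := ih α
      have hpow : ∀ j : ℕ, g ^ j • α - α - (j : 𝓞 L) * δ ∈ P ^ (n + 3) := fun j => by
        induction j with
        | zero => simp
        | succ j ihj =>
          rw [pow_succ' g, mul_smul, show g • g ^ j • α - α - ((j + 1 : ℕ) : 𝓞 L) * δ =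
            g • (g ^ j • α - α - (j : 𝓞 L) * δ) +
              (j : 𝓞 L) * (g • δ - δ) by
            have hj : g • (j : 𝓞 L) = (j : 𝓞 L) :=
              map_natCast (MulSemiringAction.toRingHom (L ≃ₐ[K] L) (𝓞 L) g) j
            rw [smul_sub, smul_sub, smul_mul', hj]
            simp only [δ]
            push_cast
            ring]
          exact Ideal.add_mem _
            (smul_mem_pow K (ramGroup_zero K P ▸ ramGroup_anti K P zero_le_one hg) ihj)
            (Ideal.mul_mem_left _ _ (smul_sub_mem_pow K hg hδ))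
      have h1 := hpow (orderOf g)
      rw [pow_orderOf_eq_one, one_smul, sub_self, zero_sub, Submodule.neg_mem_iff] at h1
      rcases Ideal.IsPrime.mul_mem_pow P h1 with h2 | h2
      · exfalso
        refine h ?_
        rw [← map_natCast (Ideal.Quotient.mk P), Ideal.Quotient.eq_zero_iff_mem]
        exact h2
      · exact h2
  have := ramGroup_anti K P (Nat.le_succ N) (hall N)
  rwa [hN, Subgroup.mem_bot] at this

/-- **`G 1` is trivial iff the ramification is tame.** -/
theorem ramGroup_one_eq_bot_iff (P : Ideal (𝓞 L)) [hP : P.IsMaximal] :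
    ramGroup K P 1 = ⊥ ↔ (Nat.card (P.inertia (L ≃ₐ[K] L)) : 𝓞 L ⧸ P) ≠ 0 := by
  classical
  letI := Ideal.Quotient.field P
  haveI : Finite (𝓞 L ⧸ P) := Ring.HasFiniteQuotients.finiteQuotient (ne_bot_of_isMaximal P)
  obtain ⟨α, r, hα, hr1, hr2, hr3⟩ := exists_generator K P
  constructor
  · intro hbot h0
    obtain ⟨p, hchar⟩ := CharP.exists (𝓞 L ⧸ P)
    haveI : Fact p.Prime := ⟨CharP.char_is_prime (𝓞 L ⧸ P) p⟩
    obtain ⟨⟨g, hg⟩, hord⟩ := exists_prime_orderOf_dvd_card' p
      ((CharP.cast_eq_zero_iff (𝓞 L ⧸ P) p _).1 h0)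
    rw [Subgroup.orderOf_mk] at hord
    set π := aeval α r
    -- `g π ≡ u π`
    obtain ⟨c, e, he, hce⟩ := Ideal.exists_mul_add_mem_pow_succ (i := 1)
      (ne_bot_of_isMaximal P) π (g • α - α) (by simpa using hr1) (by simpa using hr2)
      (by simpa using hg α)
    set u := 1 + aeval α (derivative r) * c
    have hπu : g • π - u * π ∈ P ^ 2 := by
      have h := aeval_add_sub_mem K r α (hg α)
      rw [add_sub_cancel, ← smul_aeval] at h
      rw [show g • π - u * π = (g • π - (π + aeval α (derivative r) * (g • α - α))) +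
        aeval α (derivative r) * e by rw [← hce]; ring]
      exact Ideal.add_mem _ h (Ideal.mul_mem_left _ _ he)
    have hpow : ∀ j : ℕ, g ^ j • π - u ^ j * π ∈ P ^ 2 := fun j => by
      induction j with
      | zero => simp
      | succ j ih =>
        rw [pow_succ' g, mul_smul, show g • g ^ j • π - u ^ (j + 1) * π =
          g • (g ^ j • π - u ^ j * π) + (g • u ^ j - u ^ j) * g • π + u ^ j * (g • π - u * π) by
            rw [smul_sub, smul_mul']; ring]
        refine Ideal.add_mem _ (Ideal.add_mem _ (smul_mem_pow K hg ih) ?_)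
          (Ideal.mul_mem_left _ _ hπu)
        rw [pow_two]
        exact Ideal.mul_mem_mul (hg _) (by simpa using P.add_mem (hg π) hr1)
    have hu : (u ^ p - 1) * π ∈ P ^ 2 := by
      have h := hpow p
      rw [← hord, pow_orderOf_eq_one, one_smul, hord, ← (P ^ 2).neg_mem_iff] at h
      rwa [show -(π - u ^ p * π) = (u ^ p - 1) * π by ring] at h
    have hc : c ∈ P := by
      have h1 : u ^ p - 1 ∈ P := (Ideal.IsPrime.mul_mem_pow P hu).resolve_right hr2
      rw [← Ideal.Quotient.eq_zero_iff_mem, map_sub, map_pow, map_one, ← frobenius_def,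
        ← map_one (frobenius (𝓞 L ⧸ P) p), ← map_sub, map_eq_zero, sub_eq_zero,
        map_add, map_one, add_eq_left, map_mul, mul_eq_zero, Ideal.Quotient.eq_zero_iff_mem,
        Ideal.Quotient.eq_zero_iff_mem] at h1
      exact h1.resolve_left hr3
    have h2 : g ∈ ramGroup K P 1 := by
      rw [ramGroup, mem_inertia_iff K hα, ← hce, pow_two]
      exact Ideal.add_mem _ (Ideal.mul_mem_mul hr1 hc |> fun h => by simpa [mul_comm] using h)
        (by simpa [pow_two] using he)
    rw [hbot, Subgroup.mem_bot] at h2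
    rw [h2, orderOf_one] at hord
    exact (Fact.out : p.Prime).one_lt.ne hord
  · intro h
    rw [Subgroup.eq_bot_iff_forall]
    refine fun g hg => eq_one_of_mem_ramGroup_one K hg fun h0 => h ?_
    obtain ⟨c, hc⟩ : orderOf g ∣ Nat.card (P.inertia (L ≃ₐ[K] L)) :=
      Subgroup.orderOf_mk g (ramGroup_zero K P ▸ ramGroup_anti K P zero_le_one hg) ▸
        orderOf_dvd_natCard _
    rw [hc, Nat.cast_mul, h0, zero_mul]

/-- The exponent is at least `e - 1`, and more iff `G 1` is not trivial. -/
theorem dedekind_different (P : Ideal (𝓞 L)) [hP : P.IsMaximal] :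
    (emultiplicity P (differentIdeal (𝓞 K) (𝓞 L)) =
        ((Nat.card (P.inertia (L ≃ₐ[K] L)) - 1 : ℕ) : ℕ∞) ↔ ramGroup K P 1 = ⊥) ∧
      (P ^ Nat.card (P.inertia (L ≃ₐ[K] L)) ∣ differentIdeal (𝓞 K) (𝓞 L) ↔
        ramGroup K P 1 ≠ ⊥) := by
  classical
  obtain ⟨N, hN⟩ := exists_ramGroup_eq_bot K P
  have hN' : ramGroup K P (N + 2) = ⊥ :=
    le_bot_iff.1 ((ramGroup_anti K P (by omega)).trans hN.le)
  have h := emultiplicity_differentIdeal K hN'
  rw [Finset.sum_range_succ', ramGroup_zero, Finset.sum_range_succ'] at h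
  simp only [zero_add] at h
  set e := Nat.card (P.inertia (L ≃ₐ[K] L))
  set R := ∑ n ∈ range N, (Nat.card (ramGroup K P (n + 1 + 1)) - 1)
  have he : 0 < e := Nat.card_pos
  by_cases h1 : ramGroup K P 1 = ⊥
  · have hR : R = 0 := sum_eq_zero fun n _ => by
      rw [le_bot_iff.1 ((ramGroup_anti K P (by omega : 1 ≤ n + 1 + 1)).trans h1.le),
        Subgroup.card_bot, Nat.sub_self]
    rw [h1, Subgroup.card_bot, hR] at h
    simp only [Nat.sub_self, add_zero, zero_add] at h
    refine ⟨iff_of_true h h1, iff_of_false (fun hd => ?_) (not_not.2 h1)⟩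
    have := le_emultiplicity_of_pow_dvd hd
    rw [h, Nat.cast_le] at this
    omega
  · have hc : 1 < Nat.card (ramGroup K P 1) := by
      haveI := (Subgroup.nontrivial_iff_ne_bot _).2 h1
      exact Finite.one_lt_card
    refine ⟨iff_of_false (fun he' => ?_) h1, iff_of_true ?_ h1⟩
    · rw [h, Nat.cast_inj] at he'
      omega
    · refine pow_dvd_of_le_emultiplicity ?_
      rw [h, Nat.cast_le]
      omega

end FA.HilbertDifferent

end
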